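import Fermat.Agent.Weight1.Ramanujan
import Fermat.Agent.Weight1.Depletion
import Fermat.Agent.Weight1.Isotypic
import Fermat.Agent.Weight1.Conjugates
import Mathlib.NumberTheory.EulerProduct.Basic
import Mathlib.NumberTheory.LSeries.Convolution
import Mathlib.NumberTheory.LSeries.Deriv
import Mathlib.NumberTheory.LSeries.Dirichlet
import Mathlib.NumberTheory.ModularForms.LFunction

/-!
# The depleted L-function of a weight one eigenform is entire

For a normalised weight one form with the Hecke relations, the series of the coefficients of index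
prime to `M`, `M` divisible by the primes of the level, is that of a weight one cusp form, so it
continues to an entire function; for `1 < re s` it is the Euler product over the primes `p ∤ M`.
-/

set_option autoImplicit false

noncomputable section

open CongruenceSubgroup UpperHalfPlane
open scoped MatrixGroups

namespace FA.ArtinOne

open FA.Weight1

variable {N : ℕ} [NeZero N] {ε : DirichletCharacter ℂ N} {f : CuspForm (Gamma1 N) 1}

open scoped Classical in
/-- The coefficients of index prime to `M`. -/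
def depCoeff (M : ℕ) (f : CuspForm (Gamma1 N) 1) : ℕ → ℂ :=
  fun n => if ∀ p ∈ M.primeFactors, ¬ p ∣ n then ModularFormClass.qCoeff f n else 0

omit [NeZero N] in
theorem depCoeff_eq {M n : ℕ} (hn : ∀ p ∈ M.primeFactors, ¬ p ∣ n) :
    depCoeff M f n = ModularFormClass.qCoeff f n := by
  unfold depCoeff
  exact if_pos hn

/-- A cusp form with the depleted coefficients. -/
theorem exists_depleted_form (h : IsEigen N ε f) (M : ℕ) :
    ∃ (L : ℕ) (_ : NeZero L) (g : CuspForm (Gamma1 L) 1),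
      ∀ n, ModularFormClass.qCoeff g n = depCoeff M f n := by
  classical
  have hF : IsIso ε N ⇑f := ⟨dvd_rfl, coe_mem_space f, fun γ hγ => isotypic N ε f h γ hγ⟩
  have hs : ∀ p ∈ M.primeFactors, p.Prime := fun p hp => Nat.prime_of_mem_primeFactors hp
  obtain ⟨g, hg, hgc⟩ := exists_depleted_set hF M.primeFactors hs
  have : NeZero (N * ∏ p ∈ M.primeFactors, p ^ 2) :=
    ⟨mul_ne_zero (NeZero.ne N) (Finset.prod_ne_zero_iff.mpr fun p hp =>
      pow_ne_zero _ (hs p hp).ne_zero)⟩
  refine ⟨_, inferInstance, cuspOfSpace _ g hg.mem, fun n => ?_⟩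
  show (FA.Period.qExp g).coeff n = _
  rw [hgc]
  rfl

variable {M : ℕ} (hM : M ≠ 0) (hNM : ∀ p : ℕ, p.Prime → p ∣ N → p ∣ M)

include hM hNM in
omit [NeZero N] in
theorem coprime_of_forall {n : ℕ} (hn : ∀ p ∈ M.primeFactors, ¬ p ∣ n) : n.Coprime N :=
  Nat.coprime_of_dvd fun p hp h1 h2 => hn p (Nat.mem_primeFactors.mpr ⟨hp, hNM p hp h2, hM⟩) h1

include hM hNM in
theorem norm_depCoeff_le (h : IsEigen N ε f) (n : ℕ) :
    ‖depCoeff M f n‖ ≤ n.divisors.card := by
  unfold depCoeff
  split_ifs with hn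
  · exact norm_qCoeff_le_card_divisors h (coprime_of_forall hM hNM hn)
  · simp

include hM hNM in
theorem summable_depCoeff (h : IsEigen N ε f) {s : ℂ} (hs : 1 < s.re) :
    LSeriesSummable (depCoeff M f) s := by
  have h1 : LSeriesSummable (fun _ => (1 : ℂ)) s := LSeriesSummable_one_iff.mpr hs
  refine Summable.of_norm_bounded (LSeriesSummable.convolution h1 h1).norm fun n => ?_
  refine LSeries.norm_term_le s ?_
  rw [LSeries.convolution_def]
  simp only [mul_one, Finset.sum_const, nsmul_eq_mul]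
  rw [show n.divisorsAntidiagonal.card = n.divisors.card by
    rw [← Nat.map_div_right_divisors, Finset.card_map], Complex.norm_natCast]
  exact norm_depCoeff_le hM hNM h n

include hM hNM in
theorem depCoeff_mul (h : IsEigen N ε f) {m n : ℕ} (hmn : m.Coprime n) :
    depCoeff M f (m * n) = depCoeff M f m * depCoeff M f n := by
  classical
  have hiff : (∀ p ∈ M.primeFactors, ¬ p ∣ m * n) ↔
      (∀ p ∈ M.primeFactors, ¬ p ∣ m) ∧ ∀ p ∈ M.primeFactors, ¬ p ∣ n :=
    ⟨fun H => ⟨fun p hp hd => H p hp (hd.mul_right n), fun p hp hd => H p hp (hd.mul_left m)⟩,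
      fun ⟨H1, H2⟩ p hp hd =>
        ((Nat.prime_of_mem_primeFactors hp).dvd_mul.mp hd).elim (H1 p hp) (H2 p hp)⟩
  by_cases h0 : (∀ p ∈ M.primeFactors, ¬ p ∣ m) ∧ ∀ p ∈ M.primeFactors, ¬ p ∣ n
  · rw [depCoeff_eq (hiff.mpr h0), depCoeff_eq h0.1, depCoeff_eq h0.2]
    have key : ∀ m n : ℕ, (∀ p ∈ M.primeFactors, ¬ p ∣ m) → m.Coprime n →
        ModularFormClass.qCoeff f (m * n) =
          ModularFormClass.qCoeff f m * ModularFormClass.qCoeff f n := by
      intro m
      induction m using Nat.recOnPrimePow with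
      | zero =>
        intro n _ hn
        rw [Nat.coprime_zero_left] at hn
        subst hn
        simp [h.one]
      | one => intro n _ _; simp [h.one]
      | prime_pow_mul m p r hp hpm hr ih =>
        intro n hm hn
        have hpN : ¬ p ∣ N := fun hd => hm p (Nat.mem_primeFactors.mpr ⟨hp, hNM p hp hd, hM⟩)
          ((dvd_pow_self p hr.ne').mul_right m)
        have hpn : ¬ p ∣ n := fun hd => hp.ne_one
          (Nat.eq_one_of_dvd_coprimes hn ((dvd_pow_self p hr.ne').mul_right m) hd)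
        have hpmn : ¬ p ∣ m * n := fun hd => (hp.dvd_mul.mp hd).elim hpm hpn
        rw [mul_assoc, qCoeff_prime_pow_mul h hp hpN hpmn r, qCoeff_prime_pow_mul h hp hpN hpm r,
          ih n (fun q hq hd => hm q hq (hd.mul_left _)) (hn.coprime_dvd_left (dvd_mul_left m _))]
        ring
    exact key m n h0.1 hmn
  · have h1 : depCoeff M f (m * n) = 0 := by
      rw [depCoeff, if_neg fun H => h0 (hiff.mp H)]
    rcases not_and_or.mp h0 with H | H
    · rw [h1, show depCoeff M f m = 0 by rw [depCoeff, if_neg H], zero_mul]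
    · rw [h1, show depCoeff M f n = 0 by rw [depCoeff, if_neg H], mul_zero]

include hM hNM in
theorem tsum_primePow (h : IsEigen N ε f) {s : ℂ} (hs : 1 < s.re) (p : Nat.Primes) :
    ∑' k, LSeries.term (depCoeff M f) s ((p : ℕ) ^ k) =
      if (p : ℕ) ∣ M then 1 else
        (1 - ModularFormClass.qCoeff f p * ((p : ℕ) : ℂ) ^ (-s) +
          ε ((p : ℕ) : ZMod N) * (((p : ℕ) : ℂ) ^ (-s)) ^ 2)⁻¹ := by
  classical
  set x := ((p : ℕ) : ℂ) ^ (-s) with hx
  set t := fun k : ℕ => LSeries.term (depCoeff M f) s ((p : ℕ) ^ k) with htdef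
  have ht : ∀ k, t k = depCoeff M f ((p : ℕ) ^ k) * x ^ k := fun k => by
    rw [htdef]
    simp only
    rw [LSeries.term_of_ne_zero (pow_ne_zero _ p.2.ne_zero), hx,
      Complex.cpow_neg, inv_pow, div_eq_mul_inv, ← Complex.cpow_nat_mul,
      Nat.cast_pow, Complex.natCast_cpow_natCast_mul]
  have hsum : Summable t :=
    (summable_depCoeff hM hNM h hs).comp_injective (Nat.pow_right_injective p.2.two_le)
  have h0 : t 0 = 1 := by
    rw [ht, pow_zero, pow_zero, mul_one, depCoeff_eq fun q hq hd =>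
      (Nat.prime_of_mem_primeFactors hq).ne_one (Nat.dvd_one.mp hd), h.one]
  by_cases hpM : (p : ℕ) ∣ M
  · rw [if_pos hpM, tsum_eq_single 0 fun k hk => ?_]
    · exact h0
    · show t k = 0
      rw [ht, depCoeff, if_neg fun H => H p (Nat.mem_primeFactors.mpr ⟨p.2, hpM, hM⟩)
        (dvd_pow_self _ hk), zero_mul]
  rw [if_neg hpM]
  set a := ModularFormClass.qCoeff f p
  set e := ε ((p : ℕ) : ZMod N)
  have hpN : ¬ (p : ℕ) ∣ N := fun hd => hpM (hNM p p.2 hd)
  have hc : ∀ k, depCoeff M f ((p : ℕ) ^ k) = ModularFormClass.qCoeff f ((p : ℕ) ^ k) := fun k =>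
    depCoeff_eq fun q hq hd => by
      obtain ⟨hq', hqM, -⟩ := Nat.mem_primeFactors.mp hq
      exact hpM (by rwa [← (Nat.prime_dvd_prime_iff_eq hq' p.2).mp (hq'.dvd_of_dvd_pow hd)])
  have hrec : ∀ k, t (k + 2) = a * x * t (k + 1) - e * x ^ 2 * t k := fun k => by
    have hr := h.rel p p.2 hpN ((p : ℕ) ^ (k + 1))
    rw [if_pos (dvd_pow_self _ (Nat.succ_ne_zero k)), ← pow_succ',
      show (p : ℕ) ^ (k + 1) / p = (p : ℕ) ^ k by rw [pow_succ, Nat.mul_div_cancel _ p.2.pos]] at hr
    rw [ht, ht, ht, hc, hc, hc, eq_sub_of_add_eq hr]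
    ring
  have h1 : t 1 = a * x := by rw [ht, hc, pow_one, pow_one]
  have hsum1 : Summable fun k => t (k + 1) := hsum.comp_injective (add_left_injective 1)
  have hsum2 : Summable fun k => t (k + 2) := hsum.comp_injective (add_left_injective 2)
  have hT1 : ∑' k, t k = 1 + ∑' k, t (k + 1) := by rw [hsum.tsum_eq_zero_add, h0]
  have hT2 : ∑' k, t (k + 1) = a * x + ∑' k, t (k + 2) := by rw [hsum1.tsum_eq_zero_add, h1]
  have hT3 : ∑' k, t (k + 2) = a * x * ∑' k, t (k + 1) - e * x ^ 2 * ∑' k, t k := by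
    rw [← tsum_mul_left, ← tsum_mul_left, ← Summable.tsum_sub (hsum1.mul_left _) (hsum.mul_left _)]
    exact tsum_congr hrec
  show ∑' k, t k = _
  have : (∑' k, t k) * (1 - a * x + e * x ^ 2) = 1 := by
    linear_combination (1 - a * x) * hT1 + hT2 + hT3
  exact eq_inv_of_mul_eq_one_left this

include hM hNM in
theorem hasProd_depCoeff (h : IsEigen N ε f) {s : ℂ} (hs : 1 < s.re) :
    HasProd (fun p : {p : Nat.Primes // ¬ (p : ℕ) ∣ M} =>
      (1 - ModularFormClass.qCoeff f (p.1 : ℕ) * ((p.1 : ℕ) : ℂ) ^ (-s) +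
        ε ((p.1 : ℕ) : ZMod N) * (((p.1 : ℕ) : ℂ) ^ (-s)) ^ 2)⁻¹)
      (LSeries (depCoeff M f) s) := by
  have hone : LSeries.term (depCoeff M f) s 1 = 1 := by
    rw [LSeries.term_of_ne_zero one_ne_zero, depCoeff_eq fun q hq hd =>
      (Nat.prime_of_mem_primeFactors hq).ne_one (Nat.dvd_one.mp hd), h.one]
    simp
  have hmul : ∀ {m n : ℕ}, m.Coprime n → LSeries.term (depCoeff M f) s (m * n) =
      LSeries.term (depCoeff M f) s m * LSeries.term (depCoeff M f) s n := fun {m n} hmn => by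
    rcases eq_or_ne m 0 with rfl | hm
    · simp
    rcases eq_or_ne n 0 with rfl | hn
    · simp
    rw [LSeries.term_of_ne_zero (mul_ne_zero hm hn), LSeries.term_of_ne_zero hm,
      LSeries.term_of_ne_zero hn, div_mul_div_comm, depCoeff_mul hM hNM h hmn, Nat.cast_mul,
      Complex.natCast_mul_natCast_cpow]
  have hall := EulerProduct.eulerProduct_hasProd hone hmul (summable_depCoeff hM hNM h hs).norm
    (LSeries.term_zero _ _)
  have hsub := (hasProd_subtype_iff_of_mulSupport_subset (s := {p : Nat.Primes | ¬ (p : ℕ) ∣ M})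
    (fun p hp hd => hp (by rw [tsum_primePow hM hNM h hs, if_pos hd]))).mpr hall
  exact hsub.congr_fun fun p => by
    simp only [Function.comp_apply, tsum_primePow hM hNM h hs, if_neg (Set.mem_ofPred_eq ▸ p.2)]

/-- **The depleted L-function of a weight one eigenform is entire.** -/
theorem exists_entire_eulerProduct (h : IsEigen N ε f) {M : ℕ} (hM : M ≠ 0)
    (hNM : ∀ p : ℕ, p.Prime → p ∣ N → p ∣ M) :
    ∃ F : ℂ → ℂ, Differentiable ℂ F ∧ ∀ s : ℂ, 1 < s.re →
      HasProd (fun p : {p : Nat.Primes // ¬ (p : ℕ) ∣ M} =>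
        (1 - ModularFormClass.qCoeff f (p.1 : ℕ) * ((p.1 : ℕ) : ℂ) ^ (-s) +
          ε ((p.1 : ℕ) : ZMod N) * (((p.1 : ℕ) : ℂ) ^ (-s)) ^ 2)⁻¹) (F s) := by
  obtain ⟨L, hL, g, hg⟩ := exists_depleted_form h M
  refine ⟨ModularForm.L (Γ := (Gamma1 L : Subgroup (GL (Fin 2) ℝ))) (k := 1) one_pos g,
    CuspForm.differentiable_L one_pos g, fun s hs => ?_⟩
  have hsum : ∀ z : ℂ, 3 / 2 < z.re →
      LSeries (depCoeff M f) z = ModularForm.L (Γ := (Gamma1 L : Subgroup (GL (Fin 2) ℝ))) (k := 1)
        one_pos g z := by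
    intro z hz
    have h' := CuspForm.hasSum_L (k := 1) one_pos g (s := z) (by norm_num; linarith)
    rw [strictWidthInfty_Gamma1, Complex.ofReal_one, Complex.one_cpow, one_mul] at h'
    refine HasSum.tsum_eq (h'.congr_fun fun n => ?_)
    rcases eq_or_ne n 0 with rfl | hn
    · simp [Complex.zero_cpow (show z ≠ 0 by intro e; rw [e, Complex.zero_re] at hz; linarith)]
    · rw [LSeries.term_of_ne_zero hn, ← hg]
      rfl
  have hab : LSeries.abscissaOfAbsConv (depCoeff M f) ≤ (1 : ℝ) :=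
    LSeries.abscissaOfAbsConv_le_of_forall_lt_LSeriesSummable fun y hy =>
      summable_depCoeff hM hNM h (by simpa using hy)
  have hU : IsOpen {z : ℂ | (1 : ℝ) < z.re} := isOpen_lt continuous_const Complex.continuous_re
  have h1 : AnalyticOnNhd ℂ (LSeries (depCoeff M f)) {z : ℂ | (1 : ℝ) < z.re} :=
    (LSeries_analyticOnNhd _).mono fun z (hz : (1 : ℝ) < z.re) =>
      hab.trans_lt (EReal.coe_lt_coe_iff.mpr hz)
  have h2 := (CuspForm.differentiable_L (Γ := (Gamma1 L : Subgroup (GL (Fin 2) ℝ))) (k := 1)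
    one_pos g).differentiableOn.analyticOnNhd hU
  have heq := h1.eqOn_of_preconnected_of_eventuallyEq h2
    (convex_halfSpace_re_gt (1 : ℝ)).isPreconnected (z₀ := 2) (by norm_num) (by
      filter_upwards [(isOpen_lt (continuous_const (y := (3 / 2 : ℝ))) Complex.continuous_re).mem_nhds
        (show (3 / 2 : ℝ) < (2 : ℂ).re by norm_num)] with z hz
      exact hsum z hz)
  rw [← heq hs]
  exact hasProd_depCoeff hM hNM h hs

end FA.ArtinOne

end
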